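import Fermat.Agent.Root.SummaryUnitEquationSeveral
import Fermat.Agent.Abc.Basic
import Mathlib.Analysis.SpecialFunctions.Pow.Asymptotics

/-!
# The identity of Browkin and Brzeziński

`(x + 1) ^ m - x ^ m` is for odd `m` a polynomial in `x (x + 1)` with positive coefficients, so
powers of `2` give `n` terms with radical `O (x)` and size `x ^ (2 n - 5)`.
-/

set_option autoImplicit false

noncomputable section

open UniqueFactorizationMonoid (radical)

namespace FA.NConjecture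

/-- `(x + 1) ^ m + (-x) ^ m = ∑ i, coef m i (x (x + 1)) ^ i`. -/
def coef : ℕ → ℕ → ℕ
  | 0, i => if i = 0 then 2 else 0
  | 1, i => if i = 0 then 1 else 0
  | m + 2, 0 => coef (m + 1) 0
  | m + 2, i + 1 => coef (m + 1) (i + 1) + coef m i

theorem coef_zero_right : ∀ m, 1 ≤ m → coef m 0 = 1
  | 1, _ => rfl
  | m + 2, _ => by rw [coef]; exact coef_zero_right (m + 1) (by omega)

theorem coef_pos : ∀ m i, 2 * i ≤ m → 0 < coef m i
  | 0, i, h => by rw [show i = 0 by omega]; simp [coef]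
  | 1, i, h => by rw [show i = 0 by omega]; simp [coef]
  | m + 2, 0, _ => by rw [coef_zero_right _ (by omega)]; exact one_pos
  | m + 2, i + 1, h => by
    rw [coef]
    exact Nat.lt_of_lt_of_le (coef_pos m i (by omega)) (Nat.le_add_left _ _)

theorem coef_eq_zero : ∀ m i, m < 2 * i → coef m i = 0
  | 0, i, h => by simp [coef, show i ≠ 0 by omega]
  | 1, i, h => by simp [coef, show i ≠ 0 by omega]
  | m + 2, 0, h => absurd h (Nat.not_lt_zero _)
  | m + 2, i + 1, h => by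
    rw [coef, coef_eq_zero (m + 1) (i + 1) (by omega), coef_eq_zero m i (by omega)]

theorem coef_eval (x : ℤ) : ∀ m N, m < 2 * N →
    ∑ i ∈ Finset.range N, (coef m i : ℤ) * (x * (x + 1)) ^ i = (x + 1) ^ m + (-x) ^ m
  | 0, N, h => by
    obtain ⟨N, rfl⟩ : ∃ K, N = K + 1 := ⟨N - 1, by omega⟩
    rw [Finset.sum_range_succ']
    simp [coef]
  | 1, N, h => by
    obtain ⟨N, rfl⟩ : ∃ K, N = K + 1 := ⟨N - 1, by omega⟩
    rw [Finset.sum_range_succ']
    simp [coef]
  | m + 2, N, h => by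
    obtain ⟨N, rfl⟩ : ∃ K, N = K + 1 := ⟨N - 1, by omega⟩
    have h1 := coef_eval x (m + 1) (N + 1) (by omega)
    have h2 := coef_eval x m N (by omega)
    rw [Finset.sum_range_succ'] at h1 ⊢
    simp only [coef, Nat.cast_add, add_mul, Finset.sum_add_distrib, pow_succ'] at h1 ⊢
    rw [show ∀ A B C : ℤ, A + B + C = (A + C) + B from fun A B C => by ring, h1,
      show ∑ i ∈ Finset.range N, (coef m i : ℤ) * (x * (x + 1) * (x * (x + 1)) ^ i) =
        x * (x + 1) * ∑ i ∈ Finset.range N, (coef m i : ℤ) * (x * (x + 1)) ^ i by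
      rw [Finset.mul_sum]; exact Finset.sum_congr rfl fun i _ => by ring, h2]
    ring

/-- The conditions of the `n`-conjecture. -/
def IsTuple {n : ℕ} (a : Fin n → ℤ) : Prop :=
  (∀ i, a i ≠ 0) ∧ ∑ i, a i = 0 ∧ Finset.univ.gcd a = 1 ∧
    ∀ T : Finset (Fin n), T.Nonempty → ∑ i ∈ T, a i = 0 → T = Finset.univ

theorem no_subsum {n : ℕ} {a : Fin n → ℤ} (i₀ : Fin n)
    (hneg : ∀ i, i ≠ i₀ → a i < 0) (hsum : ∑ i, a i = 0) (T : Finset (Fin n)) (hT : T.Nonempty)
    (h : ∑ i ∈ T, a i = 0) : T = Finset.univ := by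
  by_cases hi : i₀ ∈ T
  · by_contra hne
    have hc : Tᶜ.Nonempty := by
      rwa [Finset.nonempty_iff_ne_empty, ne_eq, Finset.compl_eq_empty_iff]
    have hlt : ∑ i ∈ Tᶜ, a i < 0 := Finset.sum_neg
      (fun i hi' => hneg i fun e => (Finset.mem_compl.1 hi') (e ▸ hi)) hc
    have := Finset.sum_add_sum_compl T a
    omega
  · have := Finset.sum_neg (fun i hi' => hneg i fun e => hi (e ▸ hi')) hT
    omega

/-- The tuples. -/
def bbTuple (k : ℕ) (x : ℤ) : Fin (k + 3) → ℤ :=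
  Fin.cons ((x + 1) ^ (2 * k + 1)) (Fin.cons (-x ^ (2 * k + 1))
    fun i : Fin (k + 1) => -((coef (2 * k + 1) i : ℤ) * (x * (x + 1)) ^ (i : ℕ)))

theorem isTuple_bbTuple (k : ℕ) {x : ℤ} (hx : 0 < x) : IsTuple (bbTuple k x) := by
  have hneg : ∀ i, i ≠ 0 → bbTuple k x i < 0 := fun i => by
    refine Fin.cases (fun h => absurd rfl h) (fun j _ => ?_) i
    refine Fin.cases ?_ (fun l => ?_) j
    · simp [bbTuple, pow_pos hx]
    · have := coef_pos (2 * k + 1) l (by omega)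
      simp only [bbTuple, Fin.cons_succ, Left.neg_neg_iff]
      positivity
  have hsum : ∑ i, bbTuple k x i = 0 := by
    have h := coef_eval x (2 * k + 1) (k + 1) (by omega)
    rw [← Fin.sum_univ_eq_sum_range
      (fun i => (coef (2 * k + 1) i : ℤ) * (x * (x + 1)) ^ i), neg_pow,
      Odd.neg_one_pow ⟨k, rfl⟩] at h
    rw [bbTuple, Fin.sum_cons, Fin.sum_cons, Finset.sum_neg_distrib, h]
    ring
  have h0 : (0 : ℤ) < bbTuple k x 0 := by simp [bbTuple]; positivity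
  refine ⟨fun i => ?_, hsum, ?_, no_subsum 0 hneg hsum⟩
  · rcases eq_or_ne i 0 with rfl | h
    exacts [h0.ne', (hneg i h).ne]
  · have h := Finset.gcd_dvd (f := bbTuple k x)
      (Finset.mem_univ (Fin.succ (Fin.succ (0 : Fin (k + 1)))))
    simp only [bbTuple, Fin.cons_succ, Fin.val_zero, coef_zero_right _ (Nat.le_add_left 1 _),
      Nat.cast_one, pow_zero, mul_one, dvd_neg] at h
    rw [bbTuple, ← Finset.normalize_gcd]
    exact normalize_eq_one.2 (isUnit_of_dvd_one h)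

theorem rad_bbTuple (k j : ℕ) :
    radical (∏ i, bbTuple k ((2 : ℤ) ^ j) i).natAbs ≤
      (∏ i : Fin (k + 1), coef (2 * k + 1) i) * 2 * (2 ^ j + 1) := by
  set C := ∏ i : Fin (k + 1), coef (2 * k + 1) i
  set e := 2 * k + 1 + ∑ i : Fin (k + 1), (i : ℕ)
  have hC : C ≠ 0 := Finset.prod_ne_zero_iff.2 fun i _ => (coef_pos _ _ (by omega)).ne'
  have hN : (∏ i, bbTuple k ((2 : ℤ) ^ j) i).natAbs = C * (2 ^ j) ^ e * (2 ^ j + 1) ^ e := by
    have hi : ∀ i : Fin (k + 1),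
        (-((coef (2 * k + 1) i : ℤ) * ((2 : ℤ) ^ j * ((2 : ℤ) ^ j + 1)) ^ (i : ℕ))).natAbs =
          coef (2 * k + 1) i * (2 ^ j * (2 ^ j + 1)) ^ (i : ℕ) := fun i => by
      rw [Int.natAbs_neg, Int.natAbs_mul, Int.natAbs_natCast, Int.natAbs_pow]
      rfl
    rw [bbTuple, Fin.prod_cons, Fin.prod_cons, Int.natAbs_mul, Int.natAbs_mul,
      show (∏ i : Fin (k + 1), _ : ℤ).natAbs = _ from map_prod Int.natAbsHom _ _,
      Finset.prod_congr rfl fun i _ => (Int.natAbsHom_apply _).trans (hi i),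
      Finset.prod_mul_distrib, Finset.prod_pow_eq_pow_sum, Int.natAbs_neg, Int.natAbs_pow,
      Int.natAbs_pow]
    rw [show ((2 : ℤ) ^ j + 1).natAbs = 2 ^ j + 1 from rfl,
      show ((2 : ℤ) ^ j).natAbs = 2 ^ j from rfl]
    simp only [e, C, mul_pow, pow_add]
    ring
  rw [hN, ← pow_mul]
  refine (FA.Abc.rad_mul_le _ _).trans (Nat.mul_le_mul ((FA.Abc.rad_mul_le _ _).trans
    (Nat.mul_le_mul (FA.Abc.rad_le_self hC) (FA.Abc.rad_pow_le two_ne_zero _)))
    (FA.Abc.rad_pow_le (Nat.succ_ne_zero _) _))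

theorem infinite_tuples (k : ℕ) :
    ∃ C : ℝ, 0 < C ∧ {a : Fin (k + 3) → ℤ | IsTuple a ∧
      ∃ i, C * ((radical (∏ i, a i).natAbs : ℕ) : ℝ) ^ (2 * k + 1) ≤ |(a i : ℝ)|}.Infinite := by
  set C₀ := (∏ i : Fin (k + 1), coef (2 * k + 1) i) * 2
  have hC₀ : 0 < C₀ := Nat.mul_pos (Finset.prod_pos fun i _ => coef_pos _ _ (by omega)) two_pos
  refine ⟨1 / (C₀ : ℝ) ^ (2 * k + 1), by positivity,
    Set.infinite_of_injective_forall_mem (f := fun j : ℕ => bbTuple k ((2 : ℤ) ^ j))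
      (fun i j h => ?_) fun j => ⟨isTuple_bbTuple k (by positivity), 0, ?_⟩⟩
  · have h0 := congrFun h 0
    simp only [bbTuple, Fin.cons_zero] at h0
    have h1 := (pow_left_inj₀ (by positivity : (0 : ℤ) ≤ 2 ^ i + 1)
      (by positivity : (0 : ℤ) ≤ 2 ^ j + 1) (Nat.succ_ne_zero _)).1 h0
    exact Nat.pow_right_injective le_rfl (show 2 ^ i = 2 ^ j by exact_mod_cast add_right_cancel h1)
  have hrad : ((radical (∏ i, bbTuple k ((2 : ℤ) ^ j) i).natAbs : ℕ) : ℝ) ≤
      (C₀ : ℝ) * ((2 : ℝ) ^ j + 1) := by exact_mod_cast rad_bbTuple k j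
  rw [show bbTuple k ((2 : ℤ) ^ j) 0 = ((2 : ℤ) ^ j + 1) ^ (2 * k + 1) from rfl,
    div_mul_eq_mul_div, one_mul, div_le_iff₀ (by positivity)]
  push_cast
  rw [abs_of_nonneg (by positivity), ← mul_pow, mul_comm ((2 : ℝ) ^ j + 1)]
  exact pow_le_pow_left₀ (Nat.cast_nonneg _) hrad _

theorem bounded_radical_finite (n R : ℕ) :
    {a : Fin n → ℤ | IsTuple a ∧ radical (∏ i, a i).natAbs ≤ R}.Finite := by
  rcases Nat.eq_zero_or_pos n with rfl | hn
  · exact Set.toFinite _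
  set i₀ : Fin n := ⟨0, hn⟩
  refine Set.Finite.of_finite_image
    (f := fun a : Fin n → ℤ => ((fun i => (a i : ℚ) / a i₀), decide (0 < a i₀))) ?_ ?_
  · refine ((FA.Subspace.Summary.vanishing_sums_finite (Finset.range (R + 1)) i₀).prod
      (Set.toFinite (Set.univ : Set Bool))).subset ?_
    rintro _ ⟨a, ⟨⟨hne, hsum, -, hsub⟩, hR⟩, rfl⟩
    have h0 : (a i₀ : ℚ) ≠ 0 := Int.cast_ne_zero.2 (hne i₀)
    have hval : ∀ i, ∀ p : ℕ, p.Prime → p ∉ Finset.range (R + 1) →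
        padicValRat p (a i : ℚ) = 0 := by
      intro i p hp hpR
      rw [padicValRat.of_int, padicValInt, padicValNat.eq_zero_of_not_dvd fun hd => ?_,
        Nat.cast_zero]
      refine hpR (Finset.mem_range.2 (Nat.lt_succ_of_le (le_trans ?_ hR)))
      refine Nat.le_of_dvd (Nat.radical_pos _) ?_
      rw [Nat.radical_eq_prod_primeFactors]
      refine Finset.dvd_prod_of_mem _ (Nat.mem_primeFactors.2 ⟨hp, hd.trans ?_,
        Int.natAbs_ne_zero.2 (Finset.prod_ne_zero_iff.2 fun i _ => hne i)⟩)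
      exact Int.natAbs_dvd_natAbs.2 (Finset.dvd_prod_of_mem a (Finset.mem_univ i))
    refine Set.mk_mem_prod ⟨fun i => ⟨div_ne_zero (Int.cast_ne_zero.2 (hne i)) h0,
      fun p hp hpR => ?_⟩, ?_, fun T hT h => hsub T hT ?_, div_self h0⟩ (Set.mem_univ _)
    · have : Fact p.Prime := ⟨hp⟩
      rw [padicValRat.div (Int.cast_ne_zero.2 (hne i)) h0, hval i p hp hpR, hval i₀ p hp hpR,
        sub_zero]
    · rw [← Finset.sum_div, ← Int.cast_sum, hsum, Int.cast_zero, zero_div]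
    · rw [← Finset.sum_div, div_eq_zero_iff, or_iff_left h0, ← Int.cast_sum, Int.cast_eq_zero] at h
      exact h
  · rintro a ⟨⟨hne, -, hga, -⟩, -⟩ b ⟨⟨hne', -, hgb, -⟩, -⟩ h
    simp only [Prod.mk.injEq, decide_eq_decide] at h
    obtain ⟨h, hsign⟩ := h
    have hc : ∀ i, b i₀ * a i = a i₀ * b i := fun i => by
      have := congrFun h i
      rw [div_eq_div_iff (Int.cast_ne_zero.2 (hne i₀)) (Int.cast_ne_zero.2 (hne' i₀))] at this
      have h' : a i * b i₀ = b i * a i₀ := by exact_mod_cast this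
      linarith
    have hn' : normalize (b i₀) = normalize (a i₀) := by
      have h1 : Finset.univ.gcd (fun i => b i₀ * a i) = Finset.univ.gcd (fun i => a i₀ * b i) :=
        congrArg Finset.univ.gcd (funext hc)
      rw [Finset.gcd_mul_left, Finset.gcd_mul_left, hga, hgb, mul_one, mul_one] at h1
      exact h1
    rw [← Int.abs_eq_normalize, ← Int.abs_eq_normalize, abs_eq_abs] at hn'
    have he : b i₀ = a i₀ := hn'.resolve_right fun e => by have := hne i₀; omega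
    funext i
    exact mul_left_cancel₀ (hne i₀) (by rw [← hc i, he])

theorem exponent_lt_false (k : ℕ) {e : ℝ} (he : e < (2 * k + 1 : ℕ)) :
    ¬∃ C : ℝ, ∀ a : Fin (k + 3) → ℤ, IsTuple a →
      ∀ i, |(a i : ℝ)| ≤ C * ((radical (∏ i, a i).natAbs : ℕ) : ℝ) ^ e := by
  rintro ⟨C, hC⟩
  obtain ⟨C', hC', hinf⟩ := infinite_tuples k
  have ht := (tendsto_rpow_atTop (sub_pos.2 he)).comp tendsto_natCast_atTop_atTop
  obtain ⟨R₀, hR₀⟩ := Filter.eventually_atTop.1 (ht.eventually_gt_atTop (C / C'))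
  obtain ⟨a, ⟨ha, i, hi⟩, hbig⟩ :=
    (hinf.sdiff (bounded_radical_finite (k + 3) R₀)).nonempty
  have hR : R₀ ≤ radical (∏ i, a i).natAbs := (not_le.1 fun h => hbig ⟨ha, h⟩).le
  have hr : (0 : ℝ) < (radical (∏ i, a i).natAbs : ℕ) := Nat.cast_pos.2 (Nat.radical_pos _)
  have h := hR₀ _ hR
  simp only [Function.comp_apply] at h
  rw [div_lt_iff₀ hC', Real.rpow_sub hr, Real.rpow_natCast, div_mul_eq_mul_div,
    lt_div_iff₀ (Real.rpow_pos_of_pos hr e)] at h
  linarith [hi.trans (hC a ha i)]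

end FA.NConjecture

end
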